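import Mathlib
import Fermat.Prelude.Def_ModularCurve_ModularUnit

/-!
# S16 / LOWER / L5 (C) (helper53): the Shimura class on `Γ₀(p)`

For a prime `p` and `n := eisensteinNumerator p = (p - 1) / gcd (p - 1, 12)`:

* `exists_lam` : a surjective homomorphism `lam : (ZMod p)ˣ →* Multiplicative (ZMod n)` killing every
  `x` with `x ^ 12 = 1`;
* `dUnit p : Γ₀(p) →* (ZMod p)ˣ` (lower right entry mod `p`), `dUnit_surjective`;
* `shimura p lam : Additive Γ₀(p) →+ ZMod n`, `γ ↦ lam (d_γ)`; it kills `-1`, `T`, every element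
  `γ` with `γ ^ 12 = 1`, in particular every conjugate of `S` and of `S * T` lying in `Γ₀(p)`.
-/

set_option autoImplicit false

noncomputable section

namespace Fermat.Agent.S16.H53

open ModularCurve CongruenceSubgroup ModularGroup Matrix.SpecialLinearGroup

open scoped MatrixGroups

section Lam

/-- If `(p - 1) ∣ 12 * k` then `eisensteinNumerator p ∣ k`. -/
theorem eisensteinNumerator_dvd_of_dvd_twelve_mul (p k : ℕ) (h : p - 1 ∣ 12 * k) :
    eisensteinNumerator p ∣ k := by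
  unfold eisensteinNumerator
  rcases Nat.eq_zero_or_pos (p - 1) with h0 | hpos
  · rw [h0] at h ⊢
    simp only [Nat.gcd_zero_left, Nat.zero_div]
    have : 12 * k = 0 := Nat.eq_zero_of_zero_dvd h
    have hk : k = 0 := by omega
    rw [hk]
  · set g := Nat.gcd (p - 1) 12 with hg
    have hgpos : 0 < g := Nat.gcd_pos_of_pos_left _ hpos
    have hcop : Nat.Coprime ((p - 1) / g) (12 / g) := Nat.coprime_div_gcd_div_gcd hgpos
    obtain ⟨a, ha⟩ : g ∣ p - 1 := Nat.gcd_dvd_left _ _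
    obtain ⟨b, hb⟩ : g ∣ 12 := Nat.gcd_dvd_right _ _
    have ha' : (p - 1) / g = a := by rw [ha, Nat.mul_div_cancel_left _ hgpos]
    have hb' : 12 / g = b := by rw [hb, Nat.mul_div_cancel_left _ hgpos]
    rw [ha'] at hcop ⊢
    rw [hb'] at hcop
    have h2 : g * a ∣ g * (b * k) := by
      have : 12 * k = g * (b * k) := by rw [hb]; ring
      rw [← this, ← ha]
      exact h
    have h3 : a ∣ b * k := (Nat.mul_dvd_mul_iff_left hgpos).mp h2
    exact hcop.dvd_of_dvd_mul_left h3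

/-- A surjection `(ℤ/p)ˣ → ℤ/n`, `n = (p - 1) / gcd (p - 1, 12)`, killing the `12`-torsion. -/
theorem exists_lam (p : ℕ) [Fact p.Prime] :
    ∃ lam : (ZMod p)ˣ →* Multiplicative (ZMod (eisensteinNumerator p)),
      Function.Surjective lam ∧ ∀ x, x ^ 12 = 1 → lam x = 1 := by
  classical
  have hcyc : IsCyclic (ZMod p)ˣ := inferInstance
  have hcard : Nat.card (ZMod p)ˣ = p - 1 := by
    rw [Nat.card_eq_fintype_card, ZMod.card_units]
  have : NeZero (Nat.card (ZMod p)ˣ) := ⟨Nat.card_pos.ne'⟩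
  have hdvd : eisensteinNumerator p ∣ Nat.card (ZMod p)ˣ := by
    rw [hcard]
    exact eisensteinNumerator_dvd p
  let e : Multiplicative (ZMod (Nat.card (ZMod p)ˣ)) ≃* (ZMod p)ˣ := zmodCyclicMulEquiv hcyc
  let c : ZMod (Nat.card (ZMod p)ˣ) →+* ZMod (eisensteinNumerator p) :=
    ZMod.castHom hdvd (ZMod (eisensteinNumerator p))
  let lam : (ZMod p)ˣ →* Multiplicative (ZMod (eisensteinNumerator p)) :=
    (AddMonoidHom.toMultiplicative c.toAddMonoidHom).comp e.symm.toMonoidHom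
  have hlam : ∀ x, lam x = Multiplicative.ofAdd (c (Multiplicative.toAdd (e.symm x))) :=
    fun _ => rfl
  refine ⟨lam, ?_, ?_⟩
  · intro z
    obtain ⟨y, hy⟩ := ZMod.castHom_surjective hdvd (Multiplicative.toAdd z)
    refine ⟨e (Multiplicative.ofAdd y), ?_⟩
    rw [hlam, MulEquiv.symm_apply_apply, toAdd_ofAdd]
    exact congrArg Multiplicative.ofAdd hy
  · intro x hx
    rw [hlam]
    set y : ZMod (Nat.card (ZMod p)ˣ) := Multiplicative.toAdd (e.symm x) with hy
    have h1 : (e.symm x) ^ 12 = 1 := by rw [← map_pow, hx, map_one]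
    have h2 : (12 : ℕ) • y = 0 := by
      have := congrArg Multiplicative.toAdd h1
      rwa [toAdd_pow, toAdd_one] at this
    have h3 : ((12 * y.val : ℕ) : ZMod (Nat.card (ZMod p)ˣ)) = 0 := by
      rw [Nat.cast_mul, ZMod.natCast_zmod_val, ← nsmul_eq_mul]
      exact h2
    have h4 : p - 1 ∣ 12 * y.val := by
      rw [← hcard]
      exact (ZMod.natCast_eq_zero_iff _ _).mp h3
    have h5 : eisensteinNumerator p ∣ y.val := eisensteinNumerator_dvd_of_dvd_twelve_mul p _ h4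
    have h6 : c y = 0 := by
      show ZMod.castHom hdvd (ZMod (eisensteinNumerator p)) y = 0
      rw [ZMod.castHom_apply, ← ZMod.natCast_val]
      exact (ZMod.natCast_eq_zero_iff _ _).mpr h5
    rw [h6]
    rfl

end Lam

section DUnit

variable (p : ℕ)

/-- The lower right entry mod `p`, as a homomorphism `Γ₀(p) → (ℤ/p)ˣ`. -/
def dUnit : Gamma0 p →* (ZMod p)ˣ := (Gamma0Map p).toHomUnits

theorem coe_dUnit (γ : Gamma0 p) : ((dUnit p γ : (ZMod p)ˣ) : ZMod p) = ((γ.1 1 1 : ℤ) : ZMod p) :=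
  rfl

theorem T_mem_Gamma0 : T ∈ Gamma0 p := by
  rw [Gamma0_mem]
  simp [T]

theorem neg_one_mem_Gamma0 : (-1 : SL(2, ℤ)) ∈ Gamma0 p := by
  rw [Gamma0_mem]
  simp

theorem dUnit_T : dUnit p ⟨T, T_mem_Gamma0 p⟩ = 1 := by
  apply Units.ext
  rw [coe_dUnit]
  simp [T]

/-- Every unit mod `p` is the lower right entry of an element of `Γ₀(p)`. -/
theorem dUnit_surjective [NeZero p] : Function.Surjective (dUnit p) := by
  intro u
  have hcop : Nat.Coprime (u : ZMod p).val p := ZMod.val_coe_unit_coprime u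
  have hco : IsCoprime (((u : ZMod p).val : ℕ) : ℤ) (p : ℤ) := Nat.isCoprime_iff_coprime.mpr hcop
  obtain ⟨a, b, hab⟩ := hco
  have hdet : Matrix.det !![a, -b; (p : ℤ), (((u : ZMod p).val : ℕ) : ℤ)] = 1 := by
    rw [Matrix.det_fin_two_of]
    linarith
  let γ : SL(2, ℤ) := ⟨!![a, -b; (p : ℤ), (((u : ZMod p).val : ℕ) : ℤ)], hdet⟩
  have hmem : γ ∈ Gamma0 p := by
    rw [Gamma0_mem]
    simp [γ]
  refine ⟨⟨γ, hmem⟩, ?_⟩
  apply Units.ext
  rw [coe_dUnit]
  simp [γ]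

end DUnit

section Shimura

variable (p : ℕ) (lam : (ZMod p)ˣ →* Multiplicative (ZMod (eisensteinNumerator p)))

/-- The Shimura class `γ ↦ lam (d_γ)` on `Γ₀(p)`, with values in `ℤ/n`. -/
def shimura : Additive (Gamma0 p) →+ ZMod (eisensteinNumerator p) :=
  MonoidHom.toAdditiveLeft (lam.comp (dUnit p))

theorem shimura_apply (γ : Gamma0 p) :
    shimura p lam (Additive.ofMul γ) = Multiplicative.toAdd (lam (dUnit p γ)) := rfl

variable {p lam}

theorem shimura_eq_zero_of_pow_twelve (h12 : ∀ x, x ^ 12 = 1 → lam x = 1) (γ : Gamma0 p)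
    (hγ : γ ^ 12 = 1) : shimura p lam (Additive.ofMul γ) = 0 := by
  rw [shimura_apply, h12 (dUnit p γ) (by rw [← map_pow, hγ, map_one])]
  rfl

theorem S_mul_S : S * S = -1 := by
  apply Subtype.ext
  simp only [Matrix.SpecialLinearGroup.coe_mul, Matrix.SpecialLinearGroup.coe_neg,
    Matrix.SpecialLinearGroup.coe_one]
  exact S_mul_S_eq

theorem S_pow_four : S ^ 4 = 1 := by
  rw [show (4 : ℕ) = 2 * 2 from rfl, pow_mul, sq S, S_mul_S, neg_one_sq]

theorem S_mul_T_cube : (S * T) * (S * T) * (S * T) = -1 := by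
  apply Subtype.ext
  simp only [Matrix.SpecialLinearGroup.coe_mul, Matrix.SpecialLinearGroup.coe_neg,
    Matrix.SpecialLinearGroup.coe_one, coe_S, coe_T]
  ext i j
  fin_cases i <;> fin_cases j <;> simp [Matrix.mul_apply, Fin.sum_univ_two]

theorem S_mul_T_pow_six : (S * T) ^ 6 = 1 := by
  have h3 : (S * T) ^ 3 = -1 := by
    rw [pow_succ, pow_succ, pow_one]
    exact S_mul_T_cube
  rw [show (6 : ℕ) = 3 * 2 from rfl, pow_mul, h3, neg_one_sq]

theorem shimura_neg_one (h12 : ∀ x, x ^ 12 = 1 → lam x = 1) :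
    shimura p lam (Additive.ofMul ⟨-1, neg_one_mem_Gamma0 p⟩) = 0 := by
  apply shimura_eq_zero_of_pow_twelve h12
  apply Subtype.ext
  rw [SubmonoidClass.coe_pow]
  show (-1 : SL(2, ℤ)) ^ 12 = 1
  have h : (-1 : SL(2, ℤ)) ^ 2 = 1 := neg_one_sq
  calc (-1 : SL(2, ℤ)) ^ 12 = ((-1 : SL(2, ℤ)) ^ 2) ^ 6 := by rw [← pow_mul]
    _ = 1 := by rw [h, one_pow]

theorem conj_inv_pow (g a : SL(2, ℤ)) (k : ℕ) : (g⁻¹ * a * g) ^ k = g⁻¹ * a ^ k * g := by
  have h := conj_pow (i := k) (a := g⁻¹) (b := a)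
  rwa [inv_inv] at h

theorem shimura_conj_S (h12 : ∀ x, x ^ 12 = 1 → lam x = 1) (g : SL(2, ℤ))
    (h : g⁻¹ * S * g ∈ Gamma0 p) : shimura p lam (Additive.ofMul ⟨g⁻¹ * S * g, h⟩) = 0 := by
  apply shimura_eq_zero_of_pow_twelve h12
  apply Subtype.ext
  rw [SubmonoidClass.coe_pow]
  show (g⁻¹ * S * g) ^ 12 = 1
  have h4 : S ^ 12 = 1 := by
    calc S ^ 12 = (S ^ 4) ^ 3 := by rw [← pow_mul]
      _ = 1 := by rw [S_pow_four, one_pow]
  rw [conj_inv_pow, h4, mul_one, inv_mul_cancel]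

theorem shimura_conj_ST (h12 : ∀ x, x ^ 12 = 1 → lam x = 1) (g : SL(2, ℤ))
    (h : g⁻¹ * (S * T) * g ∈ Gamma0 p) :
    shimura p lam (Additive.ofMul ⟨g⁻¹ * (S * T) * g, h⟩) = 0 := by
  apply shimura_eq_zero_of_pow_twelve h12
  apply Subtype.ext
  rw [SubmonoidClass.coe_pow]
  show (g⁻¹ * (S * T) * g) ^ 12 = 1
  have h6 : (S * T) ^ 12 = 1 := by
    calc (S * T) ^ 12 = ((S * T) ^ 6) ^ 2 := by rw [← pow_mul]
      _ = 1 := by rw [S_mul_T_pow_six, one_pow]
  rw [conj_inv_pow, h6, mul_one, inv_mul_cancel]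

theorem shimura_T : shimura p lam (Additive.ofMul ⟨T, T_mem_Gamma0 p⟩) = 0 := by
  rw [shimura_apply, dUnit_T, map_one]
  rfl

/-- The Shimura class is onto `ℤ/n` when `lam` is. -/
theorem shimura_surjective [NeZero p] (hlam : Function.Surjective lam) :
    ∀ z : ZMod (eisensteinNumerator p), ∃ γ : Gamma0 p, shimura p lam (Additive.ofMul γ) = z := by
  intro z
  obtain ⟨u, hu⟩ := hlam (Multiplicative.ofAdd z)
  obtain ⟨γ, hγ⟩ := dUnit_surjective p u
  exact ⟨γ, by rw [shimura_apply, hγ, hu]; rfl⟩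

end Shimura

end Fermat.Agent.S16.H53
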